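import Mathlib

/-!
# PROGRAMME I (S33), node DISC-TARGET, part 1: evaluation of bounded power series

`Ω` a complete ultrametric normed field, `S : Subring Ω` contained in the unit ball
(`hS : ∀ a : S, ‖(a : Ω)‖ ≤ 1`).  A power series `f : PowerSeries S` converges at every point `z` of
the open unit disc of `Ω`:

* `evalFun z f = ∑' n, (coeff n f : Ω) * z ^ n`, `evalHom hS z : PowerSeries S →+* Ω`;
* `evalHom_C`, `evalHom_X`, `norm_evalHom_le_one`, `norm_evalHom_le` (sup bound);
* `norm_evalHom_eq_of_dominant`: a strictly dominant term gives the norm of the value.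

Mathlib only.
-/

set_option autoImplicit false

namespace Fermat.Agent.FF3.DiscTarget

open PowerSeries Filter Topology

variable {Ω : Type*} [NormedField Ω]

section Eval

variable {S : Subring Ω}

/-- the `n`-th term of the value of `f` at `z` -/
noncomputable def term (z : Ω) (f : PowerSeries S) (n : ℕ) : Ω :=
  ((coeff n f : S) : Ω) * z ^ n

theorem norm_term (z : Ω) (f : PowerSeries S) (n : ℕ) :
    ‖term z f n‖ = ‖((coeff n f : S) : Ω)‖ * ‖z‖ ^ n := by
  rw [term, norm_mul, norm_pow]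

theorem norm_term_le (hS : ∀ a : S, ‖(a : Ω)‖ ≤ 1) (z : Ω) (f : PowerSeries S) (n : ℕ) :
    ‖term z f n‖ ≤ ‖z‖ ^ n := by
  rw [norm_term]
  exact mul_le_of_le_one_left (pow_nonneg (norm_nonneg _) _) (hS _)

theorem summable_norm_term (hS : ∀ a : S, ‖(a : Ω)‖ ≤ 1) {z : Ω} (hz : ‖z‖ < 1)
    (f : PowerSeries S) : Summable fun n => ‖term z f n‖ :=
  Summable.of_nonneg_of_le (fun _ => norm_nonneg _) (norm_term_le hS z f)
    (summable_geometric_of_lt_one (norm_nonneg _) hz)

theorem term_add (z : Ω) (f g : PowerSeries S) (n : ℕ) :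
    term z (f + g) n = term z f n + term z g n := by
  simp only [term, map_add, Subring.coe_add, add_mul]

theorem term_zero (z : Ω) (n : ℕ) : term z (0 : PowerSeries S) n = 0 := by
  simp only [term, map_zero, Subring.coe_zero, zero_mul]

theorem term_mul (z : Ω) (f g : PowerSeries S) (n : ℕ) :
    term z (f * g) n = ∑ kl ∈ Finset.HasAntidiagonal.antidiagonal n, term z f kl.1 * term z g kl.2 := by
  simp only [term, coeff_mul]
  rw [← Subring.subtype_apply, map_sum, Finset.sum_mul]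
  refine Finset.sum_congr rfl fun kl hkl => ?_
  rw [Finset.HasAntidiagonal.mem_antidiagonal] at hkl
  rw [← hkl, pow_add, map_mul]
  simp only [Subring.subtype_apply]
  ring

theorem term_C (z : Ω) (a : S) (n : ℕ) :
    term z (C a : PowerSeries S) n = if n = 0 then (a : Ω) else 0 := by
  rw [term, coeff_C]
  split_ifs with h
  · rw [h, pow_zero, mul_one]
  · rw [Subring.coe_zero, zero_mul]

theorem term_one (z : Ω) (n : ℕ) :
    term z (1 : PowerSeries S) n = if n = 0 then 1 else 0 := by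
  have h := term_C z (1 : S) n
  rwa [map_one, Subring.coe_one] at h

theorem term_X (z : Ω) (n : ℕ) :
    term z (X : PowerSeries S) n = if n = 1 then z else 0 := by
  rw [term, coeff_X]
  split_ifs with h
  · rw [h, pow_one, Subring.coe_one, one_mul]
  · rw [Subring.coe_zero, zero_mul]

/-- the value of `f` at `z` -/
noncomputable def evalFun (z : Ω) (f : PowerSeries S) : Ω := ∑' n, term z f n

theorem evalFun_C (z : Ω) (a : S) : evalFun z (C a : PowerSeries S) = a := by
  rw [evalFun, tsum_eq_single 0]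
  · rw [term_C, if_pos rfl]
  · intro n hn
    rw [term_C, if_neg hn]

theorem evalFun_X (z : Ω) : evalFun z (X : PowerSeries S) = z := by
  rw [evalFun, tsum_eq_single 1]
  · rw [term_X, if_pos rfl]
  · intro n hn
    rw [term_X, if_neg hn]

theorem evalFun_one (z : Ω) : evalFun z (1 : PowerSeries S) = 1 := by
  have h := evalFun_C z (1 : S)
  rwa [map_one, Subring.coe_one] at h

theorem evalFun_zero (z : Ω) : evalFun z (0 : PowerSeries S) = 0 := by
  simp only [evalFun, term_zero, tsum_zero]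

variable [CompleteSpace Ω]

theorem summable_term (hS : ∀ a : S, ‖(a : Ω)‖ ≤ 1) {z : Ω} (hz : ‖z‖ < 1)
    (f : PowerSeries S) : Summable (term z f) :=
  (summable_norm_term hS hz f).of_norm

theorem evalFun_add (hS : ∀ a : S, ‖(a : Ω)‖ ≤ 1) {z : Ω} (hz : ‖z‖ < 1)
    (f g : PowerSeries S) : evalFun z (f + g) = evalFun z f + evalFun z g := by
  simp only [evalFun, term_add]
  exact (summable_term hS hz f).tsum_add (summable_term hS hz g)

theorem evalFun_mul (hS : ∀ a : S, ‖(a : Ω)‖ ≤ 1) {z : Ω} (hz : ‖z‖ < 1)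
    (f g : PowerSeries S) : evalFun z (f * g) = evalFun z f * evalFun z g := by
  simp only [evalFun, term_mul]
  exact (tsum_mul_tsum_eq_tsum_sum_antidiagonal_of_summable_norm (summable_norm_term hS hz f)
    (summable_norm_term hS hz g)).symm

/-- **Evaluation of a bounded power series at a point of the open unit disc.** -/
noncomputable def evalHom (hS : ∀ a : S, ‖(a : Ω)‖ ≤ 1) (z : {z : Ω // ‖z‖ < 1}) :
    PowerSeries S →+* Ω where
  toFun := evalFun z.1
  map_one' := evalFun_one z.1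
  map_mul' := evalFun_mul hS z.2
  map_zero' := evalFun_zero z.1
  map_add' := evalFun_add hS z.2

theorem evalHom_apply (hS : ∀ a : S, ‖(a : Ω)‖ ≤ 1) (z : {z : Ω // ‖z‖ < 1})
    (f : PowerSeries S) : evalHom hS z f = ∑' n, ((coeff n f : S) : Ω) * z.1 ^ n := rfl

@[simp] theorem evalHom_C (hS : ∀ a : S, ‖(a : Ω)‖ ≤ 1) (z : {z : Ω // ‖z‖ < 1}) (a : S) :
    evalHom hS z (C a) = a := evalFun_C z.1 a

@[simp] theorem evalHom_X (hS : ∀ a : S, ‖(a : Ω)‖ ≤ 1) (z : {z : Ω // ‖z‖ < 1}) :
    evalHom hS z X = z.1 := evalFun_X z.1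

theorem hasSum_evalHom (hS : ∀ a : S, ‖(a : Ω)‖ ≤ 1) (z : {z : Ω // ‖z‖ < 1})
    (f : PowerSeries S) : HasSum (term z.1 f) (evalHom hS z f) :=
  (summable_term hS z.2 f).hasSum

variable [IsUltrametricDist Ω]

/-- sup bound for the value -/
theorem norm_evalHom_le (hS : ∀ a : S, ‖(a : Ω)‖ ≤ 1) (z : {z : Ω // ‖z‖ < 1})
    (f : PowerSeries S) {c : ℝ} (hc : 0 ≤ c)
    (h : ∀ n, ‖((coeff n f : S) : Ω)‖ * ‖z.1‖ ^ n ≤ c) : ‖evalHom hS z f‖ ≤ c :=
  IsUltrametricDist.norm_tsum_le_of_forall_le_of_nonneg hc fun n =>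
    (norm_term z.1 f n).le.trans (h n)

theorem norm_evalHom_le_one (hS : ∀ a : S, ‖(a : Ω)‖ ≤ 1) (z : {z : Ω // ‖z‖ < 1})
    (f : PowerSeries S) : ‖evalHom hS z f‖ ≤ 1 :=
  norm_evalHom_le hS z f zero_le_one fun _ =>
    mul_le_one₀ (hS _) (pow_nonneg (norm_nonneg _) _) (pow_le_one₀ (norm_nonneg _) z.2.le)

/-- a strictly dominant term gives the norm of the value -/
theorem norm_evalHom_eq_of_dominant (hS : ∀ a : S, ‖(a : Ω)‖ ≤ 1) (z : {z : Ω // ‖z‖ < 1})
    (f : PowerSeries S) (d : ℕ) {c : ℝ} (hc : 0 ≤ c)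
    (hlt : c < ‖((coeff d f : S) : Ω)‖ * ‖z.1‖ ^ d)
    (h : ∀ n, n ≠ d → ‖((coeff n f : S) : Ω)‖ * ‖z.1‖ ^ n ≤ c) :
    ‖evalHom hS z f‖ = ‖((coeff d f : S) : Ω)‖ * ‖z.1‖ ^ d := by
  have h1 : evalHom hS z f =
      term z.1 f d + ∑' n, (if n = d then 0 else term z.1 f n) :=
    (summable_term hS z.2 f).tsum_eq_add_tsum_ite d
  have h2 : ‖∑' n, (if n = d then (0 : Ω) else term z.1 f n)‖ ≤ c := by
    refine IsUltrametricDist.norm_tsum_le_of_forall_le_of_nonneg hc fun n => ?_
    split_ifs with hn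
    · rw [norm_zero]; exact hc
    · rw [norm_term]; exact h n hn
  have h3 : ‖term z.1 f d‖ ≠ ‖∑' n, (if n = d then (0 : Ω) else term z.1 f n)‖ := by
    rw [norm_term]
    exact fun e => absurd (e ▸ h2) (not_le.mpr hlt)
  rw [h1, IsUltrametricDist.norm_add_eq_max_of_norm_ne_norm h3, norm_term]
  exact max_eq_left (h2.trans hlt.le)

end Eval

end Fermat.Agent.FF3.DiscTarget
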