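import Mathlib
import Fermat.Agent.FF3.Wc.Main
import Fermat.Agent.FF3.DiscTarget.Eval

/-!
# PROGRAMME I (S33), node DISC-TARGET, part 2: the ring `W[[X]]`, `W = Wc K'`

`Ω` a complete ultrametric normed field, `K' : Subfield Ω` discretely normed with uniformizer `w`
(`h : IsDiscNormed K' w`, leaf L14), `W := Wc K'` the unit ball of the closure of `K'`,
`ϖ := h.unifC : W`.  In `B := PowerSeries W`, with `ev z := evalHom norm_Wc_le_one z`:

* `norm_coeff_le_of_mem_pow` : `b ∈ (C ϖ, X) ^ n → ‖coeff k b‖ ≤ ‖w‖ ^ (n - k)`;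
* `norm_ev_le_pow_of_mem_pow` : `b ∈ (C ϖ, X) ^ n → ‖ev z b‖ ≤ (max ‖w‖ ‖z‖) ^ n`;
* `exists_limit` : a sequence with `f (n+1) - f n ∈ (C ϖ, X) ^ n` has a coefficientwise limit `l`
  with `‖coeff k (l - f n)‖ ≤ ‖w‖ ^ (n - k)`; `exists_tendsto_ev`: then `ev z (f n) → ev z l` for all `z`
  (the `complete` clause of `DiscTarget`);
* `exists_collar` : the identity theorem in collar form (the `ident` clause of `DiscTarget`);
* `isPrime_span_C_unifC`, `X_notMem_span_C_unifC` : `(C ϖ)` is prime and does not contain `X`.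
-/

set_option autoImplicit false

namespace Fermat.Agent.FF3.DiscTarget

open PowerSeries Filter Topology Fermat.Agent.FF3.Wc

variable {Ω : Type*} [NormedField Ω] [IsUltrametricDist Ω] {K' : Subfield Ω} {w : Ω}

theorem norm_Wc_le_one (a : Wc K') : ‖(a : Ω)‖ ≤ 1 := Wc.norm_le_one a

/-- the norm of a nonzero element of `Wc K'` is a power of `‖w‖` -/
theorem exists_norm_eq_pow (h : IsDiscNormed K' w) {x : Wc K'} (hx : x ≠ 0) :
    ∃ n : ℕ, ‖(x : Ω)‖ = ‖w‖ ^ n := by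
  obtain ⟨n, u, hu⟩ := h.closure.exists_eq_pow_mul hx
  refine ⟨n, ?_⟩
  have h1 : ‖(((u : (Wc K')ˣ) : Wc K') : Ω)‖ = 1 := (IsDiscNormed.isUnit_Wc_iff _).1 u.isUnit
  have h2 : (x : Ω) = w ^ n * (((u : (Wc K')ˣ) : Wc K') : Ω) := congrArg Subtype.val hu
  rw [h2, norm_mul, norm_pow, h1, mul_one]

/-! ### coefficients of the powers of `(C ϖ, X)` -/

omit [IsUltrametricDist Ω] in
theorem pow_mul_le (h : IsDiscNormed K' w) (n k : ℕ) :
    ‖w‖ * ‖w‖ ^ (n - k) ≤ ‖w‖ ^ (n + 1 - k) := by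
  rw [← pow_succ']
  exact pow_le_pow_of_le_one (norm_nonneg _) h.lt_one.le (by omega)

theorem norm_coeff_le_of_mem_pow (h : IsDiscNormed K' w) :
    ∀ (n : ℕ) (b : PowerSeries (Wc K')), b ∈ Ideal.span {C h.unifC, X} ^ n →
      ∀ k, ‖((coeff k b : Wc K') : Ω)‖ ≤ ‖w‖ ^ (n - k) := by
  intro n
  induction n with
  | zero =>
    intro b _ k
    rw [Nat.zero_sub, pow_zero]
    exact norm_Wc_le_one _
  | succ n ih =>
    intro b hb
    rw [pow_succ'] at hb
    refine Submodule.smul_induction_on hb ?_ ?_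
    · intro r hr c hc k
      obtain ⟨u, v, rfl⟩ := Ideal.mem_span_pair.mp hr
      have hc1 : u * c ∈ Ideal.span {C h.unifC, X} ^ n := Ideal.mul_mem_left _ u hc
      have hc2 : v * c ∈ Ideal.span {C h.unifC, X} ^ n := Ideal.mul_mem_left _ v hc
      have e : (u * C h.unifC + v * X) • c = C h.unifC * (u * c) + X * (v * c) := by
        rw [smul_eq_mul]; ring
      rw [e, map_add, Subring.coe_add]
      refine (IsUltrametricDist.norm_add_le_max _ _).trans (max_le ?_ ?_)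
      · rw [coeff_C_mul, Subring.coe_mul, IsDiscNormed.coe_unifC, norm_mul]
        exact (mul_le_mul_of_nonneg_left (ih _ hc1 k) (norm_nonneg _)).trans (pow_mul_le h n k)
      · cases k with
        | zero =>
          rw [coeff_zero_X_mul, Subring.coe_zero, norm_zero]
          exact pow_nonneg (norm_nonneg _) _
        | succ k =>
          rw [coeff_succ_X_mul, Nat.add_sub_add_right]
          exact ih _ hc2 k
    · intro x y hx hy k
      rw [map_add, Subring.coe_add]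
      exact (IsUltrametricDist.norm_add_le_max _ _).trans (max_le (hx k) (hy k))

variable [CompleteSpace Ω]

/-- evaluation of `W[[X]]` at a point of the open unit disc of `Ω` -/
noncomputable def ev (K' : Subfield Ω) (z : {z : Ω // ‖z‖ < 1}) : PowerSeries (Wc K') →+* Ω :=
  evalHom norm_Wc_le_one z

theorem ev_apply (z : {z : Ω // ‖z‖ < 1}) (f : PowerSeries (Wc K')) :
    ev K' z f = ∑' n, ((coeff n f : Wc K') : Ω) * z.1 ^ n := rfl

@[simp] theorem ev_C (z : {z : Ω // ‖z‖ < 1}) (a : Wc K') : ev K' z (C a) = a :=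
  evalHom_C _ z a

@[simp] theorem ev_X (z : {z : Ω // ‖z‖ < 1}) : ev K' z X = z.1 := evalHom_X _ z

theorem norm_ev_le_one (z : {z : Ω // ‖z‖ < 1}) (f : PowerSeries (Wc K')) : ‖ev K' z f‖ ≤ 1 :=
  norm_evalHom_le_one _ z f

/-- a power series whose `k`-th coefficient is bounded by `‖w‖ ^ (n - k)` has values bounded by
`(max ‖w‖ ‖z‖) ^ n` -/
theorem norm_ev_le_pow_of_coeff (h : IsDiscNormed K' w) (z : {z : Ω // ‖z‖ < 1}) {n : ℕ}
    {b : PowerSeries (Wc K')} (hb : ∀ k, ‖((coeff k b : Wc K') : Ω)‖ ≤ ‖w‖ ^ (n - k)) :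
    ‖ev K' z b‖ ≤ (max ‖w‖ ‖z.1‖) ^ n := by
  have hr0 : 0 ≤ max ‖w‖ ‖z.1‖ := le_max_of_le_left (norm_nonneg _)
  have hr1 : max ‖w‖ ‖z.1‖ ≤ 1 := max_le h.lt_one.le z.2.le
  refine norm_evalHom_le _ z b (pow_nonneg hr0 n) fun k => ?_
  rcases le_or_gt k n with hk | hk
  · calc ‖((coeff k b : Wc K') : Ω)‖ * ‖z.1‖ ^ k ≤ ‖w‖ ^ (n - k) * ‖z.1‖ ^ k :=
          mul_le_mul_of_nonneg_right (hb k) (pow_nonneg (norm_nonneg _) _)
      _ ≤ (max ‖w‖ ‖z.1‖) ^ (n - k) * (max ‖w‖ ‖z.1‖) ^ k :=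
          mul_le_mul (pow_le_pow_left₀ (norm_nonneg _) (le_max_left _ _) _)
            (pow_le_pow_left₀ (norm_nonneg _) (le_max_right _ _) _)
            (pow_nonneg (norm_nonneg _) _) (pow_nonneg hr0 _)
      _ = (max ‖w‖ ‖z.1‖) ^ n := by rw [← pow_add, Nat.sub_add_cancel hk]
  · calc ‖((coeff k b : Wc K') : Ω)‖ * ‖z.1‖ ^ k ≤ 1 * ‖z.1‖ ^ k :=
          mul_le_mul_of_nonneg_right (norm_Wc_le_one _) (pow_nonneg (norm_nonneg _) _)
      _ = ‖z.1‖ ^ k := one_mul _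
      _ ≤ (max ‖w‖ ‖z.1‖) ^ k := pow_le_pow_left₀ (norm_nonneg _) (le_max_right _ _) _
      _ ≤ (max ‖w‖ ‖z.1‖) ^ n := pow_le_pow_of_le_one hr0 hr1 hk.le

/-- the values of an element of `(C ϖ, X) ^ n` are bounded by `(max ‖w‖ ‖z‖) ^ n` -/
theorem norm_ev_le_pow_of_mem_pow (h : IsDiscNormed K' w) (z : {z : Ω // ‖z‖ < 1}) {n : ℕ}
    {b : PowerSeries (Wc K')} (hb : b ∈ Ideal.span {C h.unifC, X} ^ n) :
    ‖ev K' z b‖ ≤ (max ‖w‖ ‖z.1‖) ^ n :=
  norm_ev_le_pow_of_coeff h z (norm_coeff_le_of_mem_pow h n b hb)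

/-! ### completeness -/

/-- a sequence of `W[[X]]` which is Cauchy for the `(C ϖ, X)`-adic topology has a coefficientwise
limit -/
theorem exists_limit (h : IsDiscNormed K' w) (f : ℕ → PowerSeries (Wc K'))
    (hf : ∀ n, f (n + 1) - f n ∈ Ideal.span {C h.unifC, X} ^ n) :
    ∃ l : PowerSeries (Wc K'), ∀ n k,
      ‖((coeff k (l - f n) : Wc K') : Ω)‖ ≤ ‖w‖ ^ (n - k) := by
  have hstep : ∀ n k, ‖((coeff k (f (n + 1)) : Wc K') : Ω) - ((coeff k (f n) : Wc K') : Ω)‖ ≤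
      ‖w‖ ^ (n - k) := by
    intro n k
    have := norm_coeff_le_of_mem_pow h n _ (hf n) k
    rwa [map_sub, AddSubgroupClass.coe_sub] at this
  have hex : ∀ k, ∃ L : Wc K', ∀ n,
      ‖((L : Ω) - ((coeff k (f (n + k)) : Wc K') : Ω))‖ ≤ ‖w‖ ^ n := by
    intro k
    refine h.exists_limit_Wc (fun n => coeff k (f (n + k))) fun n => ?_
    have := hstep (n + k) k
    rwa [Nat.add_sub_cancel, Nat.add_right_comm] at this
  choose L hL using hex
  refine ⟨PowerSeries.mk L, fun n k => ?_⟩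
  rw [map_sub, coeff_mk, AddSubgroupClass.coe_sub]
  rcases le_or_gt k n with hk | hk
  · have := hL k (n - k)
    rwa [Nat.sub_add_cancel hk] at this
  · rw [Nat.sub_eq_zero_of_le hk.le, pow_zero]
    exact (Wc.norm_sub_le_max_norm _ _).trans (max_le (norm_Wc_le_one _) (norm_Wc_le_one _))

/-- **Completeness (weak pointwise form).** -/
theorem exists_tendsto_ev (h : IsDiscNormed K' w) (f : ℕ → PowerSeries (Wc K'))
    (hf : ∀ n, f (n + 1) - f n ∈ Ideal.span {C h.unifC, X} ^ n) :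
    ∃ l : PowerSeries (Wc K'), ∀ z : {z : Ω // ‖z‖ < 1},
      Tendsto (fun n => ev K' z (f n)) atTop (𝓝 (ev K' z l)) := by
  obtain ⟨l, hl⟩ := exists_limit h f hf
  refine ⟨l, fun z => ?_⟩
  have hr0 : 0 ≤ max ‖w‖ ‖z.1‖ := le_max_of_le_left (norm_nonneg _)
  have hr1 : max ‖w‖ ‖z.1‖ < 1 := max_lt h.lt_one z.2
  rw [tendsto_iff_norm_sub_tendsto_zero]
  refine squeeze_zero (fun _ => norm_nonneg _) (fun n => ?_)
    (tendsto_pow_atTop_nhds_zero_of_lt_one hr0 hr1)
  rw [← map_sub, ← norm_neg, ← map_neg, neg_sub]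
  exact norm_ev_le_pow_of_coeff h z (hl n)

/-! ### the identity theorem -/

/-- **The identity theorem in collar form**: a nonzero element of `W[[X]]` has no zero in a collar
`ρ < ‖z‖ < 1`. -/
theorem exists_collar (h : IsDiscNormed K' w) {b : PowerSeries (Wc K')} (hb : b ≠ 0) :
    ∃ ρ : ℝ, ρ < 1 ∧ ∀ z : {z : Ω // ‖z‖ < 1}, ρ < ‖z.1‖ → ev K' z b ≠ 0 := by
  classical
  -- the minimal exponent `m` of the coefficients and the first index `d` where it is attained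
  have hex : ∃ m : ℕ, ∃ k, ‖((coeff k b : Wc K') : Ω)‖ = ‖w‖ ^ m := by
    obtain ⟨k, hk⟩ : ∃ k, coeff k b ≠ 0 := by
      by_contra hcon
      exact hb (PowerSeries.ext fun k => by
        rw [map_zero]
        exact not_not.mp fun hk => hcon ⟨k, hk⟩)
    obtain ⟨m, hm⟩ := exists_norm_eq_pow h hk
    exact ⟨m, k, hm⟩
  set m := Nat.find hex with hm
  have hex2 : ∃ k, ‖((coeff k b : Wc K') : Ω)‖ = ‖w‖ ^ m := Nat.find_spec hex
  set d := Nat.find hex2 with hd
  have hdm : ‖((coeff d b : Wc K') : Ω)‖ = ‖w‖ ^ m := Nat.find_spec hex2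
  have hW0 : 0 < ‖w‖ := h.pos
  have hW1 : ‖w‖ < 1 := h.lt_one
  have hall : ∀ k, ‖((coeff k b : Wc K') : Ω)‖ ≤ ‖w‖ ^ m := by
    intro k
    rcases eq_or_ne (coeff k b) 0 with h0 | h0
    · rw [h0, Subring.coe_zero, norm_zero]
      exact pow_nonneg hW0.le _
    · obtain ⟨m', hm'⟩ := exists_norm_eq_pow h h0
      rw [hm']
      exact pow_le_pow_of_le_one hW0.le hW1.le (Nat.find_min' hex ⟨k, hm'⟩)
  have hlow : ∀ k, k < d → ‖((coeff k b : Wc K') : Ω)‖ ≤ ‖w‖ ^ (m + 1) := by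
    intro k hk
    rcases eq_or_ne (coeff k b) 0 with h0 | h0
    · rw [h0, Subring.coe_zero, norm_zero]
      exact pow_nonneg hW0.le _
    · obtain ⟨m', hm'⟩ := exists_norm_eq_pow h h0
      have h1 : m ≤ m' := Nat.find_min' hex ⟨k, hm'⟩
      have h2 : m' ≠ m := fun e => Nat.find_min hex2 hk (e ▸ hm')
      rw [hm']
      exact pow_le_pow_of_le_one hW0.le hW1.le (by omega)
  -- the radius of the collar
  refine ⟨‖w‖ ^ (((d + 1 : ℕ) : ℝ)⁻¹), Real.rpow_lt_one hW0.le hW1 (by positivity), fun z hz => ?_⟩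
  have hρ0 : 0 ≤ ‖w‖ ^ (((d + 1 : ℕ) : ℝ)⁻¹) := Real.rpow_nonneg hW0.le _
  have hr0 : 0 < ‖z.1‖ := lt_of_le_of_lt hρ0 hz
  have hr1 : ‖z.1‖ < 1 := z.2
  have hWr : ‖w‖ < ‖z.1‖ ^ (d + 1) := by
    have h1 := pow_lt_pow_left₀ hz hρ0 (Nat.succ_ne_zero d)
    rwa [Real.rpow_inv_natCast_pow hW0.le (Nat.succ_ne_zero d)] at h1
  have hmain : ‖ev K' z b‖ = ‖((coeff d b : Wc K') : Ω)‖ * ‖z.1‖ ^ d := by
    refine norm_evalHom_eq_of_dominant norm_Wc_le_one z b d
      (c := ‖w‖ ^ m * ‖z.1‖ ^ (d + 1)) (by positivity) ?_ fun k hk => ?_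
    · rw [hdm, pow_succ]
      exact mul_lt_mul_of_pos_left (mul_lt_of_lt_one_right (pow_pos hr0 d) hr1) (pow_pos hW0 m)
    · rcases lt_or_gt_of_ne hk with hk | hk
      · calc ‖((coeff k b : Wc K') : Ω)‖ * ‖z.1‖ ^ k ≤ ‖w‖ ^ (m + 1) * 1 :=
              mul_le_mul (hlow k hk) (pow_le_one₀ hr0.le hr1.le) (pow_nonneg hr0.le _)
                (pow_nonneg hW0.le _)
          _ = ‖w‖ ^ m * ‖w‖ := by rw [mul_one, pow_succ]
          _ ≤ ‖w‖ ^ m * ‖z.1‖ ^ (d + 1) :=
              mul_le_mul_of_nonneg_left hWr.le (pow_nonneg hW0.le _)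
      · exact mul_le_mul (hall k) (pow_le_pow_of_le_one hr0.le hr1.le hk) (pow_nonneg hr0.le _)
          (pow_nonneg hW0.le _)
  intro h0
  rw [h0, norm_zero, hdm] at hmain
  exact absurd hmain.symm (mul_pos (pow_pos hW0 m) (pow_pos hr0 d)).ne'

/-! ### the prime `(C ϖ)` -/

section Prime

variable {R : Type*} [CommRing R]

/-- the kernel of the reduction of the coefficients modulo a principal ideal -/
theorem ker_map_mk_span_singleton (p : R) :
    RingHom.ker (PowerSeries.map (Ideal.Quotient.mk (Ideal.span {p}))) = Ideal.span {C p} := by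
  ext f
  rw [RingHom.mem_ker, Ideal.mem_span_singleton]
  constructor
  · intro hf
    have h1 : ∀ n, ∃ g : R, coeff n f = p * g := by
      intro n
      have h2 := congrArg (coeff n) hf
      rw [coeff_map, map_zero, Ideal.Quotient.eq_zero_iff_mem, Ideal.mem_span_singleton] at h2
      exact h2
    choose g hg using h1
    exact ⟨PowerSeries.mk g, PowerSeries.ext fun n => by rw [coeff_C_mul, coeff_mk, hg n]⟩
  · rintro ⟨g, rfl⟩
    rw [map_mul, map_C,
      Ideal.Quotient.eq_zero_iff_mem.2 (Ideal.mem_span_singleton_self p), map_zero, zero_mul]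

/-- `(C p)` is a prime ideal of `R[[X]]` when `p` is a prime element of the domain `R` -/
theorem isPrime_span_C [IsDomain R] {p : R} (hp : Prime p) :
    (Ideal.span {(C p : PowerSeries R)}).IsPrime := by
  rw [← ker_map_mk_span_singleton]
  have : (Ideal.span {p}).IsPrime := (Ideal.span_singleton_prime hp.ne_zero).2 hp
  exact RingHom.ker_isPrime _

/-- `X ∉ (C p)` when `p` is not a unit -/
theorem X_notMem_span_C {p : R} (hp : ¬ IsUnit p) :
    (X : PowerSeries R) ∉ Ideal.span {(C p : PowerSeries R)} := by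
  intro hX
  obtain ⟨g, hg⟩ := Ideal.mem_span_singleton.mp hX
  have h1 := congrArg (coeff 1) hg
  rw [coeff_one_X, coeff_C_mul] at h1
  exact hp (IsUnit.of_mul_eq_one _ h1.symm)

end Prime

omit [CompleteSpace Ω] in
theorem prime_unifC (h : IsDiscNormed K' w) : Prime h.unifC := by
  have := h.isDVR_Wc
  exact UniqueFactorizationMonoid.irreducible_iff_prime.1 h.irreducible_unifC

omit [CompleteSpace Ω] in
/-- `(C ϖ)` is a prime ideal of `W[[X]]` -/
theorem isPrime_span_C_unifC (h : IsDiscNormed K' w) :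
    (Ideal.span {(C h.unifC : PowerSeries (Wc K'))}).IsPrime :=
  isPrime_span_C (prime_unifC h)

omit [CompleteSpace Ω] in
/-- `X ∉ (C ϖ)` -/
theorem X_notMem_span_C_unifC (h : IsDiscNormed K' w) :
    (X : PowerSeries (Wc K')) ∉ Ideal.span {(C h.unifC : PowerSeries (Wc K'))} :=
  X_notMem_span_C h.irreducible_unifC.not_isUnit

end Fermat.Agent.FF3.DiscTarget
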