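import Mathlib
import Fermat.Agent.FF3.DiscTarget.Adic

/-!
# PROGRAMME I (S33), node DISC-TARGET, part 3: the ideal `(C ϖ)` of `W[[X]]`

Facts on `B = PowerSeries (Wc K')` and `J = (C ϖ)` in the literal shape of the fields `prime`,
`X_notMem`, `am`, `unit` of helper22's `B4.SideHyp` (the `B`-side halves).

* `mem_span_C_iff` : `f ∈ (C p) ↔ ∀ n, coeff n f ∈ (p)`;
* `mem_span_C_unifC_iff` : `b ∈ (C ϖ) ↔ ∀ n, ‖coeff n b‖ ≤ ‖w‖`; `mem_span_C_unifC_iff_lt`;
* `sub_X_mul_notMem_span_C` : `u - X * g ∉ (C p)` for a unit `u` and a non-unit `p`;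
* `exists_poly_sub_sub_mem` : modulo `(C ϖ) + (X ^ N)` every power series is a polynomial of degree
  `< N` with coefficients in any set of representatives of the residue field.
-/

set_option autoImplicit false

namespace Fermat.Agent.FF3.DiscTarget

open PowerSeries Filter Topology Fermat.Agent.FF3.Wc

section General

variable {R : Type*} [CommRing R]

theorem mem_span_C_iff {p : R} {f : PowerSeries R} :
    f ∈ Ideal.span {(C p : PowerSeries R)} ↔ ∀ n, coeff n f ∈ Ideal.span {p} := by
  rw [← ker_map_mk_span_singleton, RingHom.mem_ker]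
  constructor
  · intro hf n
    have h2 := congrArg (coeff n) hf
    rwa [coeff_map, map_zero, Ideal.Quotient.eq_zero_iff_mem] at h2
  · intro hf
    refine PowerSeries.ext fun n => ?_
    rw [coeff_map, map_zero, Ideal.Quotient.eq_zero_iff_mem]
    exact hf n

/-- a unit minus a multiple of `X` is not divisible by a non-unit constant -/
theorem sub_X_mul_notMem_span_C {p : R} (hp : ¬ IsUnit p) {u : PowerSeries R} (hu : IsUnit u)
    (g : PowerSeries R) : u - X * g ∉ Ideal.span {(C p : PowerSeries R)} := by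
  intro hmem
  have h0 := mem_span_C_iff.mp hmem 0
  rw [map_sub, coeff_zero_X_mul, sub_zero, Ideal.mem_span_singleton] at h0
  have hu0 : IsUnit (coeff 0 u) := by
    rw [coeff_zero_eq_constantCoeff_apply]
    exact hu.map (constantCoeff (R := R))
  exact hp (isUnit_of_dvd_unit h0 hu0)

end General

variable {Ω : Type*} [NormedField Ω] [IsUltrametricDist Ω] {K' : Subfield Ω} {w : Ω}

/-- `(C ϖ)` is the set of power series all of whose coefficients have norm `≤ ‖w‖` -/
theorem mem_span_C_unifC_iff (h : IsDiscNormed K' w) {b : PowerSeries (Wc K')} :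
    b ∈ Ideal.span {(C h.unifC : PowerSeries (Wc K'))} ↔
      ∀ n, ‖((coeff n b : Wc K') : Ω)‖ ≤ ‖w‖ := by
  rw [mem_span_C_iff]
  refine forall_congr' fun n => ?_
  have := h.mem_span_pow_Wc_iff 1 (coeff n b)
  rwa [pow_one, pow_one] at this

/-- `(C ϖ)` is the set of power series all of whose coefficients have norm `< 1` -/
theorem mem_span_C_unifC_iff_lt (h : IsDiscNormed K' w) {b : PowerSeries (Wc K')} :
    b ∈ Ideal.span {(C h.unifC : PowerSeries (Wc K'))} ↔
      ∀ n, ‖((coeff n b : Wc K') : Ω)‖ < 1 := by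
  rw [mem_span_C_unifC_iff h]
  refine forall_congr' fun n => ⟨fun hn => hn.trans_lt h.lt_one, fun hn => ?_⟩
  exact h.closure.le_of_lt_one _ (coeff n b).2.1 hn

/-- the `unit` field of `B4.SideHyp` for `W[[X]]` -/
theorem sub_X_mul_notMem_span_C_unifC (h : IsDiscNormed K' w) {u : PowerSeries (Wc K')}
    (hu : IsUnit u) (g : PowerSeries (Wc K')) :
    u - X * g ∉ Ideal.span {(C h.unifC : PowerSeries (Wc K'))} :=
  sub_X_mul_notMem_span_C h.irreducible_unifC.not_isUnit hu g

/-- **Density**: modulo `(C ϖ) + (X ^ N)` every power series is a polynomial of degree `< N` with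
coefficients among given representatives `ρ` of the residue field. -/
theorem exists_poly_sub_sub_mem (h : IsDiscNormed K' w) {ι : Type*} (ρ : ι → Wc K')
    (hρ : ∀ x : Wc K', ∃ i, ‖(x : Ω) - (ρ i : Ω)‖ < 1) (g : PowerSeries (Wc K')) (N : ℕ) :
    ∃ (a : ℕ → ι) (g' : PowerSeries (Wc K')),
      g - (∑ k ∈ Finset.range N, C (ρ (a k)) * X ^ k) - X ^ N * g' ∈
        Ideal.span {(C h.unifC : PowerSeries (Wc K'))} := by
  choose a ha using fun k => hρ (coeff k g)
  refine ⟨a, PowerSeries.mk fun n => coeff (n + N) g, ?_⟩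
  rw [mem_span_C_unifC_iff_lt h]
  intro n
  have hsum : coeff n (∑ k ∈ Finset.range N, (C (ρ (a k)) : PowerSeries (Wc K')) * X ^ k) =
      if n < N then ρ (a n) else 0 := by
    rw [map_sum]
    simp only [coeff_C_mul_X_pow]
    split_ifs with hn
    · rw [Finset.sum_eq_single n]
      · rw [if_pos rfl]
      · intro k _ hk
        rw [if_neg (Ne.symm hk)]
      · intro hn'
        exact absurd (Finset.mem_range.mpr hn) hn'
    · refine Finset.sum_eq_zero fun k hk => ?_
      rw [if_neg]
      intro e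
      exact hn (e ▸ Finset.mem_range.mp hk)
  rw [map_sub, map_sub, hsum, coeff_X_pow_mul']
  split_ifs with h1 h2 h2
  · exact absurd h1 (not_lt.mpr h2)
  · rw [sub_zero]
    exact ha n
  · rw [coeff_mk, Nat.sub_add_cancel h2, sub_zero, sub_self, Subring.coe_zero, norm_zero]
    exact zero_lt_one
  · exact absurd (not_lt.mp h1) h2

end Fermat.Agent.FF3.DiscTarget
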