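import Mathlib
import Fermat.Agent.FF3.AmiceU.Roots
import Fermat.Agent.FF3.AmiceU.BallAdic
import Fermat.Agent.FF3.ExpandDisc.Boundary
import Fermat.Agent.FF3.DiscTarget.Side

/-!
# PROGRAMME I (S33), node BD-AMICE: the Amice boundary ring of `W[[X]]`

`Ω` a complete ultrametric normed field, `K' : Subfield Ω` discretely normed with uniformizer `w`
(`h : IsDiscNormed K' w`), `W = Wc K'`, `B = PowerSeries W`, `E = ball (BAmice (Kc K'))` the unit
ball of the Amice ring of bounded Laurent series over the closure `Kc K'` of `K'`.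

* `toBall : Wc K' ≃+* ball (Kc K')`;
* `toAmice K' : PowerSeries (Wc K') →+* ball (BAmice (Kc K'))` (helper11's `ofPS` after `toBall`),
  `coeff_toAmice_natCast`, `coeff_toAmice_neg`, `toAmice_injective`;
* `amiceBoundary h : ExpandDisc.BoundaryRing (C h.unifC) X (ball (BAmice (Kc K')))`;
* `amiceBoundary_hasRoots h hn : (amiceBoundary h).HasRoots n` for `(n : Ω) ≠ 0` (L11: helper11's
  `AmiceU.disc_root` + `exists_eq_algebraMap_of_pow_eq`), `amiceBoundary_hasRoots'` for `CharZero Ω`;
* `instance : IsDomain (PowerSeries (Wc K'))` is found by Mathlib (`isDomain_powerSeries_Wc`).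
-/

set_option autoImplicit false
set_option linter.unusedSectionVars false

namespace Fermat.Agent.FF3.DiscTarget

open PowerSeries Filter Topology Fermat.Agent.FF3.Wc Fermat.Agent.FF3.Amice
  Fermat.Agent.FF3.AmiceU Fermat.Agent.FF3.ExpandDisc

variable {Ω : Type*} [NormedField Ω] [IsUltrametricDist Ω] [CompleteSpace Ω]
  {K' : Subfield Ω} {w : Ω}

theorem isDomain_powerSeries_Wc (K' : Subfield Ω) : IsDomain (PowerSeries (Wc K')) := inferInstance

/-! ### `Wc K'` is the unit ball of `Kc K'` -/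

/-- `Wc K'` is the closed unit ball of the normed field `Kc K'` -/
def toBall (K' : Subfield Ω) : Wc K' ≃+* ball (Kc K') where
  toFun x := ⟨⟨(x : Ω), x.2.1⟩, x.2.2⟩
  invFun y := ⟨((y : Kc K') : Ω), (y : Kc K').2, y.2⟩
  left_inv _ := rfl
  right_inv _ := rfl
  map_mul' _ _ := rfl
  map_add' _ _ := rfl

@[simp] theorem coe_toBall (x : Wc K') : (((toBall K' x : ball (Kc K')) : Kc K') : Ω) = (x : Ω) :=
  rfl

@[simp] theorem coe_toBall_symm (y : ball (Kc K')) :
    (((toBall K').symm y : Wc K') : Ω) = ((y : Kc K') : Ω) := rfl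

/-- the uniformizer, in `Kc K'` -/
def unifK (h : IsDiscNormed K' w) : Kc K' := ⟨w, le_Kc K' h.mem⟩

@[simp] theorem coe_unifK (h : IsDiscNormed K' w) : ((unifK h : Kc K') : Ω) = w := rfl

theorem norm_unifK (h : IsDiscNormed K' w) : ‖unifK h‖ = ‖w‖ := rfl

theorem unifK_ne_zero (h : IsDiscNormed K' w) : unifK h ≠ 0 := fun h0 =>
  h.ne_zero (congrArg Subtype.val h0)

theorem toBall_unifC (h : IsDiscNormed K' w) :
    ((toBall K' h.unifC : ball (Kc K')) : Kc K') = unifK h := rfl

/-- the norm of `Kc K'` is discrete -/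
theorem isDiscreteNorm_unifK (h : IsDiscNormed K' w) : IsDiscreteNorm (unifK h) := by
  refine ⟨h.pos, h.lt_one, fun a ha => ?_⟩
  have ha0 : (a : Ω) ≠ 0 := fun h0 => ha (Subtype.ext h0)
  exact h.exists_zpow_eq_closure a.2 ha0

/-! ### `W[[X]]` in the integral Amice ring -/

/-- `W[[X]]` in the Amice ring -/
noncomputable def toAmice' (K' : Subfield Ω) : PowerSeries (Wc K') →+* BAmice (Kc K') :=
  (ofPS (K := Kc K')).comp (PowerSeries.map (toBall K').toRingHom)

theorem toAmice'_apply (f : PowerSeries (Wc K')) :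
    toAmice' K' f = ofPS (PowerSeries.map (toBall K').toRingHom f) := rfl

theorem coeff_toAmice'_natCast (f : PowerSeries (Wc K')) (n : ℕ) :
    ((BAmice.coeff (n : ℤ) (toAmice' K' f) : Kc K') : Ω) = ((coeff n f : Wc K') : Ω) := by
  rw [toAmice'_apply, coeff_ofPS_natCast, coeff_map]
  rfl

theorem coeff_toAmice'_neg (f : PowerSeries (Wc K')) {n : ℤ} (hn : n < 0) :
    BAmice.coeff n (toAmice' K' f) = 0 := coeff_ofPS_neg _ hn

theorem norm_toAmice'_le (f : PowerSeries (Wc K')) : ‖toAmice' K' f‖ ≤ 1 := norm_ofPS_le _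

/-- **`W[[X]]` in the integral Amice ring** -/
noncomputable def toAmice (K' : Subfield Ω) : PowerSeries (Wc K') →+* ball (BAmice (Kc K')) :=
  (toAmice' K').codRestrict (ball (BAmice (Kc K'))) norm_toAmice'_le

@[simp] theorem coe_toAmice (f : PowerSeries (Wc K')) :
    ((toAmice K' f : ball (BAmice (Kc K'))) : BAmice (Kc K')) = toAmice' K' f := rfl

theorem coeff_toAmice_natCast (f : PowerSeries (Wc K')) (n : ℕ) :
    ((BAmice.coeff (n : ℤ) ((toAmice K' f : ball (BAmice (Kc K'))) : BAmice (Kc K')) : Kc K') : Ω) =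
      ((coeff n f : Wc K') : Ω) := coeff_toAmice'_natCast f n

theorem coeff_toAmice_neg (f : PowerSeries (Wc K')) {n : ℤ} (hn : n < 0) :
    BAmice.coeff n ((toAmice K' f : ball (BAmice (Kc K'))) : BAmice (Kc K')) = 0 :=
  coeff_toAmice'_neg f hn

theorem toAmice'_injective : Function.Injective (toAmice' K') := by
  intro f g hfg
  refine PowerSeries.ext fun n => Subtype.ext ?_
  rw [← coeff_toAmice'_natCast f n, ← coeff_toAmice'_natCast g n, hfg]

theorem toAmice_injective : Function.Injective (toAmice K') := fun _ _ hfg =>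
  toAmice'_injective (congrArg Subtype.val hfg)

theorem toAmice'_C (a : Wc K') :
    toAmice' K' (C a) = algebraMap (Kc K') (BAmice (Kc K')) ⟨(a : Ω), a.2.1⟩ := by
  rw [toAmice'_apply, PowerSeries.map_C, ofPS_C]
  rfl

theorem toAmice'_unif (h : IsDiscNormed K' w) :
    toAmice' K' (C h.unifC) = algebraMap (Kc K') (BAmice (Kc K')) (unifK h) :=
  toAmice'_C h.unifC

theorem toAmice'_X :
    toAmice' K' (X : PowerSeries (Wc K')) = ((BAmice.X : (BAmice (Kc K'))ˣ) : BAmice (Kc K')) := by
  rw [toAmice'_apply, PowerSeries.map_X, BAmice.coe_X]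
  apply BAmice.ext
  intro n
  rw [BAmice.coeff_single]
  rcases lt_or_ge n 0 with hn | hn
  · rw [coeff_ofPS_neg _ hn, if_neg (by omega)]
  · obtain ⟨N, rfl⟩ := Int.eq_ofNat_of_zero_le hn
    rw [coeff_ofPS_natCast, PowerSeries.coeff_X]
    by_cases hN : N = 1
    · rw [if_pos hN, if_pos (by exact_mod_cast hN)]
      rfl
    · rw [if_neg hN, if_neg (by exact_mod_cast hN)]
      rfl

theorem norm_single_le_one (k : ℤ) : ‖BAmice.single k (1 : Kc K')‖ ≤ 1 := by
  rw [BAmice.norm_le_iff]
  intro n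
  rw [BAmice.coeff_single]
  split_ifs
  · exact norm_one.le
  · rw [norm_zero]
    exact zero_le_one

/-- the coordinate is a unit of the integral Amice ring -/
theorem isUnit_toAmice_X : IsUnit (toAmice K' (X : PowerSeries (Wc K'))) := by
  refine isUnit_iff_exists_inv.mpr ⟨⟨BAmice.single (-1) 1, norm_single_le_one (-1)⟩, ?_⟩
  apply Subtype.ext
  rw [Subring.coe_mul, coe_toAmice, toAmice'_X, Subring.coe_one]
  exact (BAmice.X : (BAmice (Kc K'))ˣ).val_inv

/-! ### the boundary ring -/

/-- (AM) for the Amice boundary -/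
theorem mem_span_of_toAmice_eq_mul (h : IsDiscNormed K' w) (g : PowerSeries (Wc K'))
    (hz : ∃ z : ball (BAmice (Kc K')), toAmice K' g = toAmice K' (C h.unifC) * z) :
    g ∈ Ideal.span {(C h.unifC : PowerSeries (Wc K'))} := by
  obtain ⟨z, hz⟩ := hz
  rw [mem_span_C_unifC_iff h]
  intro n
  have h1 := congrArg (fun y : ball (BAmice (Kc K')) => BAmice.coeff (n : ℤ) (y : BAmice (Kc K'))) hz
  simp only [Subring.coe_mul, coe_toAmice] at h1
  rw [toAmice'_unif, coeff_algebraMap_mul] at h1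
  have h2 : ((coeff n g : Wc K') : Ω) =
      w * ((BAmice.coeff (n : ℤ) (z : BAmice (Kc K')) : Kc K') : Ω) := by
    rw [← coeff_toAmice'_natCast g n, h1]
    rfl
  rw [h2, norm_mul]
  refine mul_le_of_le_one_right (norm_nonneg _) ?_
  exact (BAmice.norm_coeff_le (n : ℤ) (z : BAmice (Kc K'))).trans z.2

/-- the uniformizer is not a zero divisor of the integral Amice ring -/
theorem toAmice_unif_mul_cancel (h : IsDiscNormed K' w) (z z' : ball (BAmice (Kc K')))
    (hzz : toAmice K' (C h.unifC) * z = toAmice K' (C h.unifC) * z') : z = z' := by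
  apply Subtype.ext
  apply BAmice.ext
  intro n
  have h1 := congrArg (fun y : ball (BAmice (Kc K')) => BAmice.coeff n (y : BAmice (Kc K'))) hzz
  simp only [Subring.coe_mul, coe_toAmice] at h1
  rw [toAmice'_unif, coeff_algebraMap_mul, coeff_algebraMap_mul] at h1
  exact mul_left_cancel₀ (unifK_ne_zero h) h1

/-- **BD-AMICE**: the unit ball of the Amice ring is a boundary ring of `W[[X]]`. -/
noncomputable def amiceBoundary (h : IsDiscNormed K' w) :
    BoundaryRing (C h.unifC : PowerSeries (Wc K')) X (ball (BAmice (Kc K'))) where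
  dT := toAmice K'
  complete := isAdicComplete_ball_bAmice (unifK_ne_zero h) h.lt_one _ (toAmice'_unif h)
  isUnit_coord := isUnit_toAmice_X
  am := mem_span_of_toAmice_eq_mul h
  cancel := toAmice_unif_mul_cancel h

@[simp] theorem amiceBoundary_dT (h : IsDiscNormed K' w) : (amiceBoundary h).dT = toAmice K' := rfl

/-! ### roots -/

/-- a unit of the unit ball has norm one -/
theorem norm_eq_one_of_isUnit_ball {c : ball (Kc K')} (hc : IsUnit c) : ‖(c : Kc K')‖ = 1 := by
  obtain ⟨d, hd⟩ := isUnit_iff_exists_inv.mp hc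
  have h1 : (c : Kc K') * (d : Kc K') = 1 := congrArg Subtype.val hd
  have h2 : ‖(c : Kc K')‖ * ‖(d : Kc K')‖ = 1 := by rw [← norm_mul, h1, norm_one]
  have hc1 : ‖(c : Kc K')‖ ≤ 1 := c.2
  have hd1 : ‖(d : Kc K')‖ ≤ 1 := d.2
  nlinarith [norm_nonneg (c : Kc K'), norm_nonneg (d : Kc K')]

theorem map_toBall_symm_map (f : PowerSeries (ball (Kc K'))) :
    PowerSeries.map (toBall K').toRingHom (PowerSeries.map (toBall K').symm.toRingHom f) = f := by
  refine PowerSeries.ext fun n => ?_
  rw [coeff_map, coeff_map]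
  exact (toBall K').apply_symm_apply _

/-- **The disc root property (L11) for the Amice boundary**: an `n`-th root in the integral Amice
ring of a unit of `W[[X]]` lies in `W[[X]]`. -/
theorem amiceBoundary_hasRoots (h : IsDiscNormed K' w) {n : ℕ} (hn : (n : Ω) ≠ 0) :
    (amiceBoundary h).HasRoots n := by
  intro g hg u hu
  have hn0 : n ≠ 0 := by
    rintro rfl
    exact hn Nat.cast_zero
  have hnK : ((n : ℕ) : Kc K') ≠ 0 := by
    intro h0
    apply hn
    have := congrArg (fun y : Kc K' => (y : Ω)) h0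
    simpa using this
  have hϖ := isDiscreteNorm_unifK h
  set f : PowerSeries (ball (Kc K')) := PowerSeries.map (toBall K').toRingHom g with hf
  have hfu : IsUnit f := hg.map _
  have hc₀u : IsUnit (PowerSeries.constantCoeff f) := hfu.map _
  have hc₀ : ‖((PowerSeries.constantCoeff f : ball (Kc K')) : Kc K')‖ = 1 :=
    norm_eq_one_of_isUnit_ball hc₀u
  set v : BAmice (Kc K') := (u : BAmice (Kc K')) with hv
  have hvn : v ^ n = ofPS f := by
    have h1 := congrArg (fun y : ball (BAmice (Kc K')) => (y : BAmice (Kc K'))) hu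
    simp only [Subring.coe_pow, amiceBoundary_dT, coe_toAmice] at h1
    exact h1
  have hf0 : ofPS f ≠ 0 := by
    intro h0
    have : f = 0 := ofPS_injective (by rw [h0, map_zero])
    exact hfu.ne_zero this
  have hv0 : v ≠ 0 := by
    intro h0
    rw [h0, zero_pow hn0] at hvn
    exact hf0 hvn.symm
  have hvatt := exists_norm_coeff_eq_of_discrete hϖ hv0
  obtain ⟨g₁, hg₁0, hg₁⟩ := disc_root hc₀ (one_ne_zero (α := Kc K')) hv0 hvatt n
    (by rw [map_one, one_mul, hvn])
  -- `ofPS g₁` is a unit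
  have hg₁u : IsUnit g₁ := by
    rw [PowerSeries.isUnit_iff_constantCoeff, hg₁0]
    exact isUnit_one
  obtain ⟨Gi, hGi⟩ := isUnit_iff_exists_inv.mp (hg₁u.map (ofPS (K := Kc K')))
  set c₀ : ball (Kc K') := PowerSeries.constantCoeff f with hc₀def
  have hc₀0 : (c₀ : Kc K') ≠ 0 := by
    intro h0
    rw [h0, norm_zero] at hc₀
    exact zero_ne_one hc₀
  -- `x = v / ofPS g₁` has `x ^ n = c₀`
  have hx : (v * Gi) ^ n = algebraMap (Kc K') (BAmice (Kc K')) (c₀ : Kc K') := by
    rw [mul_pow, hvn, hg₁, map_mul, map_pow, ofPS_C, mul_assoc, ← mul_pow, hGi, one_pow, mul_one]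
  obtain ⟨c, hcn, hxc⟩ := exists_eq_algebraMap_of_pow_eq hϖ hn0 hnK hc₀0 hx
  have hc1 : ‖c‖ = 1 := by
    have h1 : ‖c‖ ^ n = 1 := by rw [← norm_pow, hcn, hc₀]
    exact (pow_eq_one_iff_of_nonneg (norm_nonneg c) hn0).mp h1
  set cb : ball (Kc K') := ⟨c, hc1.le⟩ with hcb
  have hv' : v = ofPS (PowerSeries.C cb * g₁) := by
    rw [map_mul, ofPS_C]
    show v = algebraMap (Kc K') (BAmice (Kc K')) c * ofPS g₁
    rw [← hxc, mul_assoc, mul_comm Gi, hGi, mul_one]
  refine ⟨PowerSeries.map (toBall K').symm.toRingHom (PowerSeries.C cb * g₁), ?_⟩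
  apply Subtype.ext
  show toAmice' K' _ = v
  rw [toAmice'_apply, map_toBall_symm_map, hv']

/-- the same in characteristic zero -/
theorem amiceBoundary_hasRoots' [CharZero Ω] (h : IsDiscNormed K' w) {n : ℕ} (hn : n ≠ 0) :
    (amiceBoundary h).HasRoots n :=
  amiceBoundary_hasRoots h (Nat.cast_ne_zero.mpr hn)

end Fermat.Agent.FF3.DiscTarget
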