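import Mathlib
import Fermat.Agent.FF3.Wc.Main
import Fermat.Agent.FF3.DiscTarget.Adic
import Fermat.Agent.FF3.ExpandDisc.Target

/-!
# PROGRAMME I (S33), node DISC-TARGET: the `DiscTarget` instance for `B = W[[X]]`

`Ω` a complete ultrametric normed field, `W₀` a commutative ring with `w : W₀` and `j : W₀ →+* Ω`,
`K' : Subfield Ω` discretely normed with uniformizer `j w` (`h : IsDiscNormed K' (j w)`, leaf L14)
and `hj : ∀ a, j a ∈ Wc K'` (`j` has values in the unit ball of the closure of `K'`; for instance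
`j a ∈ K'` and `‖j a‖ ≤ 1`).  Then

* `discTarget h hj : DiscTarget W₀ (PowerSeries (Wc K')) Ω w j` (helper25's structure, file
  `FF3/ExpandDisc/Target.lean`, vendored byte-identically from origin/helper25 @572bfda9);
* `discTarget_c_unif`, `isPrime_span_c_unif`, `X_notMem_span_c_unif` : the hypotheses `hB`, `hX` of
  `ExpandDisc.unif_dvd_iff_discExpand_mem` for this target;
* `isDiscNormed_closure_range` : the subfield of `Ω` generated by `j (W₀)` is discretely normed with
  uniformizer `j w` as soon as every nonzero `j a` has norm `‖j w‖ ^ n` for some `n : ℕ`.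
-/

set_option autoImplicit false

namespace Fermat.Agent.FF3.DiscTarget

open PowerSeries Filter Topology Fermat.Agent.FF3.Wc Fermat.Agent.FF3.ExpandDisc

variable {Ω : Type*} [NormedField Ω] [IsUltrametricDist Ω] [CompleteSpace Ω]
  {W₀ : Type*} [CommRing W₀] {w : W₀} {j : W₀ →+* Ω} {K' : Subfield Ω}

omit [CompleteSpace Ω] in
/-- a ring hom with values in `K'` and in the unit ball has values in `Wc K'` -/
theorem mem_Wc_of_mem (hjK : ∀ a, j a ∈ K') (hj1 : ∀ a, ‖j a‖ ≤ 1) (a : W₀) : j a ∈ Wc K' :=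
  ⟨le_Kc K' (hjK a), hj1 a⟩

/-- the constants `W₀ → W ⊆ W[[X]]` -/
noncomputable def constW (hj : ∀ a, j a ∈ Wc K') : W₀ →+* Wc K' := j.codRestrict (Wc K') hj

omit [CompleteSpace Ω] in
@[simp] theorem coe_constW (hj : ∀ a, j a ∈ Wc K') (a : W₀) : ((constW hj a : Wc K') : Ω) = j a :=
  rfl

omit [CompleteSpace Ω] in
theorem constW_unif (h : IsDiscNormed K' (j w)) (hj : ∀ a, j a ∈ Wc K') :
    constW hj w = h.unifC := rfl

/-- **DISC-TARGET**: `W[[X]]`, `W = Wc K'`, is a target of the disc expansion. -/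
noncomputable def discTarget (h : IsDiscNormed K' (j w)) (hj : ∀ a, j a ∈ Wc K') :
    DiscTarget W₀ (PowerSeries (Wc K')) Ω w j where
  c := (C : Wc K' →+* PowerSeries (Wc K')).comp (constW hj)
  X := X
  evB := ev K'
  evB_c := fun z a => by
    rw [RingHom.comp_apply, ev_C, coe_constW]
  evB_X := fun z => ev_X z
  evB_le := fun z b => norm_ev_le_one z b
  complete := fun f hf => exists_tendsto_ev h f hf
  ident := fun _ hb => exists_collar h hb

@[simp] theorem discTarget_c (h : IsDiscNormed K' (j w)) (hj : ∀ a, j a ∈ Wc K') (a : W₀) :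
    (discTarget h hj).c a = C (constW hj a) := rfl

@[simp] theorem discTarget_X (h : IsDiscNormed K' (j w)) (hj : ∀ a, j a ∈ Wc K') :
    (discTarget h hj).X = (X : PowerSeries (Wc K')) := rfl

theorem discTarget_evB (h : IsDiscNormed K' (j w)) (hj : ∀ a, j a ∈ Wc K')
    (z : {z : Ω // ‖z‖ < 1}) (b : PowerSeries (Wc K')) :
    (discTarget h hj).evB z b = ∑' n, ((coeff n b : Wc K') : Ω) * z.1 ^ n := rfl

theorem discTarget_c_unif (h : IsDiscNormed K' (j w)) (hj : ∀ a, j a ∈ Wc K') :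
    (discTarget h hj).c w = C h.unifC := rfl

/-- `(c w)` is a prime ideal of the target -/
theorem isPrime_span_c_unif (h : IsDiscNormed K' (j w)) (hj : ∀ a, j a ∈ Wc K') :
    (Ideal.span {(discTarget h hj).c w}).IsPrime :=
  isPrime_span_C_unifC h

/-- the coordinate is not divisible by the uniformizer -/
theorem X_notMem_span_c_unif (h : IsDiscNormed K' (j w)) (hj : ∀ a, j a ∈ Wc K') :
    (discTarget h hj).X ∉ Ideal.span {(discTarget h hj).c w} :=
  X_notMem_span_C_unifC h

/-- the values of `(c w, X) ^ n` are bounded by `(max ‖j w‖ ‖z‖) ^ n` -/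
theorem norm_evB_le_pow (h : IsDiscNormed K' (j w)) (hj : ∀ a, j a ∈ Wc K')
    (z : {z : Ω // ‖z‖ < 1}) {n : ℕ} {b : PowerSeries (Wc K')}
    (hb : b ∈ Ideal.span {(discTarget h hj).c w, (discTarget h hj).X} ^ n) :
    ‖(discTarget h hj).evB z b‖ ≤ (max ‖j w‖ ‖z.1‖) ^ n :=
  norm_ev_le_pow_of_mem_pow h z hb

/-! ### discretely normed subfields generated by the image of a ring -/

omit [IsUltrametricDist Ω] [CompleteSpace Ω] in
/-- The subfield of `Ω` generated by `j (W₀)` is discretely normed with uniformizer `j w` as soon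
as `0 < ‖j w‖ < 1` and every nonzero `j a` has norm `‖j w‖ ^ n` for some `n : ℕ`. -/
theorem isDiscNormed_closure_range (hw0 : j w ≠ 0) (hw1 : ‖j w‖ < 1)
    (hdv : ∀ a : W₀, j a ≠ 0 → ∃ n : ℕ, ‖j a‖ = ‖j w‖ ^ n) :
    IsDiscNormed (Subfield.closure (Set.range j)) (j w) where
  mem := Subfield.subset_closure ⟨w, rfl⟩
  pos := norm_pos_iff.2 hw0
  lt_one := hw1
  le_of_lt_one := by
    intro x hx hx1
    have hW0 : 0 < ‖j w‖ := norm_pos_iff.2 hw0
    rw [Subfield.mem_closure_iff] at hx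
    obtain ⟨y, hy, z, hz, rfl⟩ := hx
    have hr : Subring.closure (Set.range j) = j.range := by
      rw [← RingHom.coe_range, Subring.closure_eq]
    rw [hr] at hy hz
    obtain ⟨a, rfl⟩ := hy
    obtain ⟨b, rfl⟩ := hz
    rcases eq_or_ne (j a) 0 with ha | ha
    · rw [ha, zero_div, norm_zero]
      exact hW0.le
    rcases eq_or_ne (j b) 0 with hb | hb
    · rw [hb, div_zero, norm_zero]
      exact hW0.le
    obtain ⟨m, hm⟩ := hdv a ha
    obtain ⟨n, hn⟩ := hdv b hb
    rw [norm_div, hm, hn] at hx1 ⊢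
    have hn0 : 0 < ‖j w‖ ^ n := pow_pos hW0 n
    rw [div_lt_one hn0] at hx1
    have hlt : n < m := by
      by_contra hcon
      exact absurd hx1 (not_lt.2 (pow_le_pow_of_le_one hW0.le hw1.le (not_lt.1 hcon)))
    rw [div_le_iff₀ hn0, ← pow_succ']
    exact pow_le_pow_of_le_one hW0.le hw1.le hlt

omit [IsUltrametricDist Ω] [CompleteSpace Ω] in
theorem mem_closure_range (a : W₀) : j a ∈ Subfield.closure (Set.range j) :=
  Subfield.subset_closure ⟨a, rfl⟩

/-- **DISC-TARGET, packaged**: the target `W[[X]]` for `K' :=` the subfield generated by `j (W₀)`,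
from the discreteness of `‖j ·‖` on `W₀`. -/
noncomputable def discTargetOfRange (hw0 : j w ≠ 0) (hw1 : ‖j w‖ < 1) (hj1 : ∀ a, ‖j a‖ ≤ 1)
    (hdv : ∀ a : W₀, j a ≠ 0 → ∃ n : ℕ, ‖j a‖ = ‖j w‖ ^ n) :
    DiscTarget W₀ (PowerSeries (Wc (Subfield.closure (Set.range j)))) Ω w j :=
  discTarget (isDiscNormed_closure_range hw0 hw1 hdv) (mem_Wc_of_mem mem_closure_range hj1)

end Fermat.Agent.FF3.DiscTarget
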