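import Mathlib
import Fermat.Agent.FF3.DiscInst.Tower
import Fermat.Agent.FF3.DiscTarget.Main

/-!
# PROGRAMME I (S33), node DISC-TARGET at the tower of levels

The target `W_S[[X]]` of helper24's `DiscInst.discExpandS` at every level `S` of a smooth family
over the tower of levels (`X : TowerFamily …`, `hX : Standing X π`), for a complete ultrametric
normed field `Ω` with `j : Kb →+* Ω`, `hj : ∀ c, ‖j c‖ ≤ 1 ↔ c ∈ A`.

* `jS X j S` : the constants of the level `S` in `Ω`; `KS' X j S` : the subfield of `Ω` they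
  generate; `isDiscNormed_KS'` : it is discretely normed with uniformizer `j (unif A hq hA S)`;
* `targetS X hX j hj S : DiscInst.Target X j S (PowerSeries (Wc (KS' X j S)))`;
* `isPrime_span_targetS`, `X_notMem_span_targetS` : the hypotheses `hB`, `hXB` of the Gauss clause;
* `mapS X j h : PowerSeries (Wc (KS' X j S)) →+* PowerSeries (Wc (KS' X j S'))` for `S ⊆ S'` and
  `evB_mapS` : the hypothesis `hβ` of `DiscInst.discExpandS_mono`; `discExpandS_targetS_mono`.
-/

set_option autoImplicit false
set_option linter.unusedSectionVars false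

noncomputable section

namespace Fermat.Agent.FF3.DiscTarget

open AlgebraicCurve IsLocalRing Fermat.Agent.Red Fermat.Agent.X0 Fermat.Agent.Val
  Fermat.Agent.BR.Centre Fermat.Agent.BR.S0 Fermat.Agent.BR.Inst.Levels
  Fermat.Agent.FF3.SmoothFam Fermat.Agent.FF3.ExpandDisc Fermat.Agent.FF3.Expand
  Fermat.Agent.FF3.DiscInst Fermat.Agent.FF3.Wc PowerSeries

variable {N : ℕ} [NeZero N] {A : ValuationSubring Kb} {q : ℕ} {hq : q.Prime}
  {hA : A.LiesOverPrime q} {k Ft : Type*} [Field k] [Field Ft] [Algebra k Ft]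
  {O : ValuationSubring (Fb N)} {res : O →+* Ft} {Q : Place k Ft}
  {T : Set (Place Kb (Fb N))}

variable (X : TowerFamily A hq hA O res Q T) {π : A →+* k} (hX : Standing X π)
  {Ω : Type*} [NormedField Ω] (j : Kb →+* Ω) (hj : ∀ c : Kb, ‖j c‖ ≤ 1 ↔ c ∈ A)

/-- the constants of the level `S`, in `Ω` -/
abbrev jS (S : Finset Kb) : constRing (K := Kb) (X.R S) →+* Ω :=
  j.comp (constRing (K := Kb) (X.R S)).subtype

/-- the subfield of `Ω` generated by the constants of the level `S` -/
def KS' (S : Finset Kb) : Subfield Ω := Subfield.closure (Set.range (jS X j S))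

theorem jS_mem_KS' (S : Finset Kb) (a : constRing (K := Kb) (X.R S)) : jS X j S a ∈ KS' X j S :=
  Subfield.subset_closure ⟨a, rfl⟩

theorem KS'_mono {S S' : Finset Kb} (h : S ⊆ S') : KS' X j S ≤ KS' X j S' := by
  refine Subfield.closure_mono ?_
  rintro _ ⟨a, rfl⟩
  exact ⟨⟨(a : Kb), constRing_mono (X.mono h) a.2⟩, rfl⟩

include hj in
/-- an element of `Kb` of valuation one has norm one -/
theorem norm_eq_one_of_valuation_eq_one {x : Kb} (hx : A.valuation x = 1) : ‖j x‖ = 1 := by
  have hx0 : x ≠ 0 := by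
    rintro rfl
    rw [map_zero] at hx
    exact zero_ne_one hx
  have h1 : ‖j x‖ ≤ 1 := (hj x).mpr ((A.valuation_le_one_iff x).mp hx.le)
  have h2 : ‖j x⁻¹‖ ≤ 1 := by
    refine (hj _).mpr ((A.valuation_le_one_iff _).mp ?_)
    rw [map_inv₀, hx, inv_one]
  rw [map_inv₀, norm_inv] at h2
  have hpos : 0 < ‖j x‖ := norm_pos_iff.mpr ((map_ne_zero j).mpr hx0)
  exact le_antisymm h1 ((inv_le_one₀ hpos).mp h2)

include hX hj in
/-- the norm is discrete on the constants of a level -/
theorem exists_norm_jS_eq_pow (S : Finset Kb) (a : constRing (K := Kb) (X.R S))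
    (ha : jS X j S a ≠ 0) :
    ∃ n : ℕ, ‖jS X j S a‖ = ‖jS X j S (ExpandDisc.unif (X.level S))‖ ^ n := by
  have ha0 : (a : Kb) ≠ 0 := by
    intro h0
    apply ha
    show j (a : Kb) = 0
    rw [h0, map_zero]
  obtain ⟨n, x', -, hx'1, hax⟩ := exists_const_eq_pow_mul (X.level S) hX.hAO a.2 ha0
  refine ⟨n, ?_⟩
  show ‖j (a : Kb)‖ = ‖j (BR.Inst.Levels.unif A hq hA S)‖ ^ n
  rw [hax, map_mul, map_pow, norm_mul, norm_pow, norm_eq_one_of_valuation_eq_one j hj hx'1, mul_one]

include hX hj in
/-- **The constants of a level generate a discretely normed subfield of `Ω`.** -/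
theorem isDiscNormed_KS' (S : Finset Kb) :
    IsDiscNormed (KS' X j S) (jS X j S (ExpandDisc.unif (X.level S))) :=
  isDiscNormed_closure_range
    ((map_ne_zero j).mpr (unif_ne_zero A hq hA S))
    (norm_lt_one_of_lt j hj _ (unif_lt_one A hq hA S))
    (exists_norm_jS_eq_pow X hX j hj S)

variable [IsUltrametricDist Ω]

include hX hj in
theorem jS_mem_Wc (S : Finset Kb) (a : constRing (K := Kb) (X.R S)) :
    jS X j S a ∈ Wc (KS' X j S) :=
  mem_Wc_of_mem (jS_mem_KS' X j S)
    (fun a => (hj _).mpr (DiscInst.mem_of_mem_constRing X hX S a.2)) a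

variable [CompleteSpace Ω]

/-- **DISC-TARGET at the level `S`**: the target `W_S[[X]]` of the expansion. -/
def targetS (S : Finset Kb) : DiscInst.Target X j S (PowerSeries (Wc (KS' X j S))) :=
  discTarget (isDiscNormed_KS' X hX j hj S) (jS_mem_Wc X hX j hj S)

theorem targetS_evB (S : Finset Kb) (z : {z : Ω // ‖z‖ < 1}) (b : PowerSeries (Wc (KS' X j S))) :
    (targetS X hX j hj S).evB z b = ∑' n, ((coeff n b : Wc (KS' X j S)) : Ω) * z.1 ^ n := rfl

@[simp] theorem targetS_X (S : Finset Kb) :
    (targetS X hX j hj S).X = (PowerSeries.X : PowerSeries (Wc (KS' X j S))) := rfl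

theorem coeff_targetS_c (S : Finset Kb) (a : constRing (K := Kb) (X.R S)) (n : ℕ) :
    ((coeff n ((targetS X hX j hj S).c a) : Wc (KS' X j S)) : Ω) =
      if n = 0 then j (a : Kb) else 0 := by
  show ((coeff n (C (constW (jS_mem_Wc X hX j hj S) a)) : Wc (KS' X j S)) : Ω) = _
  rw [coeff_C]
  split_ifs <;> rfl

/-- `(c ϖ_S)` is a prime ideal of the target (hypothesis `hB` of the Gauss clause) -/
theorem isPrime_span_targetS (S : Finset Kb) :
    (Ideal.span {(targetS X hX j hj S).c (ExpandDisc.unif (X.level S))}).IsPrime :=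
  isPrime_span_c_unif (isDiscNormed_KS' X hX j hj S) (jS_mem_Wc X hX j hj S)

/-- the coordinate is not divisible by the uniformizer (hypothesis `hXB` of the Gauss clause) -/
theorem X_notMem_span_targetS (S : Finset Kb) :
    (targetS X hX j hj S).X ∉
      Ideal.span {(targetS X hX j hj S).c (ExpandDisc.unif (X.level S))} :=
  X_notMem_span_c_unif (isDiscNormed_KS' X hX j hj S) (jS_mem_Wc X hX j hj S)

/-! ### functoriality in the level -/

/-- the change of level on the targets -/
def mapS {S S' : Finset Kb} (h : S ⊆ S') :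
    PowerSeries (Wc (KS' X j S)) →+* PowerSeries (Wc (KS' X j S')) :=
  PowerSeries.map (WcMap (KS'_mono X j h))

theorem coeff_mapS {S S' : Finset Kb} (h : S ⊆ S') (b : PowerSeries (Wc (KS' X j S))) (n : ℕ) :
    ((coeff n (mapS X j h b) : Wc (KS' X j S')) : Ω) = ((coeff n b : Wc (KS' X j S)) : Ω) := by
  rw [mapS, coeff_map, coe_WcMap]

theorem mapS_injective {S S' : Finset Kb} (h : S ⊆ S') : Function.Injective (mapS X j h) := by
  intro b b' hbb
  refine PowerSeries.ext fun n => Subtype.ext ?_
  rw [← coeff_mapS X j h b n, ← coeff_mapS X j h b' n, hbb]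

/-- the change of level is compatible with the evaluations (hypothesis `hβ` of
`DiscInst.discExpandS_mono`) -/
theorem evB_mapS {S S' : Finset Kb} (h : S ⊆ S') (z : {z : Ω // ‖z‖ < 1})
    (b : PowerSeries (Wc (KS' X j S))) :
    (targetS X hX j hj S').evB z (mapS X j h b) = (targetS X hX j hj S).evB z b := by
  rw [targetS_evB, targetS_evB]
  simp only [coeff_mapS]

/-- **Functoriality of the expansion in the level**, for the targets `W_S[[X]]`. -/
theorem discExpandS_targetS_mono {S S' : Finset Kb} (h : S ⊆ S') (y : X.R S) :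
    mapS X j h (discExpandS X hX j hj S (targetS X hX j hj S) y) =
      discExpandS X hX j hj S' (targetS X hX j hj S') (Subring.inclusion (X.mono h) y) :=
  discExpandS_mono X hX j hj h (targetS X hX j hj S) (targetS X hX j hj S') (mapS X j h)
    (evB_mapS X hX j hj h) y

/-! ### the Gauss clause at the targets `W_S[[X]]` -/

/-- **The Gauss clause** for the target `W_S[[X]]`, without hypotheses. -/
theorem unif_dvd_iff_discExpandS_targetS_mem (S : Finset Kb) (y : X.R S) :
    constHom (X.R S) (ExpandDisc.unif (X.level S)) ∣ y ↔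
      discExpandS X hX j hj S (targetS X hX j hj S) y ∈
        Ideal.span {(targetS X hX j hj S).c (ExpandDisc.unif (X.level S))} :=
  unif_dvd_iff_discExpandS_mem X hX j hj S (targetS X hX j hj S) (isPrime_span_targetS X hX j hj S)
    (X_notMem_span_targetS X hX j hj S) y

/-- the Gauss clause in terms of the component -/
theorem mem_nonunits_iff_discExpandS_targetS_mem (S : Finset Kb) (y : X.R S) :
    (y : Fb N) ∈ O.nonunits ↔
      discExpandS X hX j hj S (targetS X hX j hj S) y ∈
        Ideal.span {(targetS X hX j hj S).c (ExpandDisc.unif (X.level S))} :=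
  mem_nonunits_iff_discExpandS_mem X hX j hj S (targetS X hX j hj S)
    (isPrime_span_targetS X hX j hj S) (X_notMem_span_targetS X hX j hj S) y

end Fermat.Agent.FF3.DiscTarget
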