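import Mathlib
import Fermat.Agent.FF3.DiscTarget.Tower
import Fermat.Agent.FF3.DiscTarget.Boundary

/-!
# PROGRAMME I (S33), node BD-AMICE at the tower of levels

For `X : TowerFamily …`, `hX : Standing X π`, `(Ω, j, hj)` as in `DiscTarget/Tower.lean`, the inputs
`bd`, `hroot`, `hBdens` of helper25's `ExpandDisc.discPartOfDatum` at the target `targetS X hX j hj S`:

* `amiceBoundaryS X hX j hj S : BoundaryRing ((targetS …).c (unif (X.level S))) (targetS …).X
    (ball (BAmice (Kc (KS' X j S))))`;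
* `amiceBoundaryS_hasRoots X hX j hj S hn : (amiceBoundaryS X hX j hj S).HasRoots n` for `(n : Ω) ≠ 0`;
* `exists_const_sub_lt` : the constants of the level `S` fill the residue field of `Wc (KS' X j S)`;
* `hBdens_targetS` : density of the polynomials with constants of the level modulo `(ϖ, X ^ N)`, in
  the literal of `ExpandDisc.discDatum`.
-/

set_option autoImplicit false
set_option linter.unusedSectionVars false

noncomputable section

namespace Fermat.Agent.FF3.DiscTarget

open AlgebraicCurve IsLocalRing Fermat.Agent.Red Fermat.Agent.X0 Fermat.Agent.Val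
  Fermat.Agent.BR.Centre Fermat.Agent.BR.S0 Fermat.Agent.BR.Inst.Levels
  Fermat.Agent.FF3.SmoothFam Fermat.Agent.FF3.ExpandDisc Fermat.Agent.FF3.Expand
  Fermat.Agent.FF3.DiscInst Fermat.Agent.FF3.Wc Fermat.Agent.FF3.Amice Fermat.Agent.FF3.AmiceU
  PowerSeries

variable {N : ℕ} [NeZero N] {A : ValuationSubring Kb} {q : ℕ} {hq : q.Prime}
  {hA : A.LiesOverPrime q} {k Ft : Type*} [Field k] [Field Ft] [Algebra k Ft]
  {O : ValuationSubring (Fb N)} {res : O →+* Ft} {Q : Place k Ft}
  {T : Set (Place Kb (Fb N))}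

variable (X : TowerFamily A hq hA O res Q T) {π : A →+* k} (hX : Standing X π)
  {Ω : Type*} [NormedField Ω] [IsUltrametricDist Ω] [CompleteSpace Ω]
  (j : Kb →+* Ω) (hj : ∀ c : Kb, ‖j c‖ ≤ 1 ↔ c ∈ A)

/-- **The Amice boundary ring of the target `W_S[[X]]`.** -/
def amiceBoundaryS (S : Finset Kb) :
    BoundaryRing ((targetS X hX j hj S).c (ExpandDisc.unif (X.level S))) (targetS X hX j hj S).X
      (ball (BAmice (Kc (KS' X j S)))) :=
  amiceBoundary (isDiscNormed_KS' X hX j hj S)

@[simp] theorem amiceBoundaryS_dT (S : Finset Kb) :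
    (amiceBoundaryS X hX j hj S).dT = toAmice (KS' X j S) := rfl

/-- **The disc root property (L11) at the level `S`.** -/
theorem amiceBoundaryS_hasRoots (S : Finset Kb) {n : ℕ} (hn : (n : Ω) ≠ 0) :
    (amiceBoundaryS X hX j hj S).HasRoots n :=
  amiceBoundary_hasRoots (isDiscNormed_KS' X hX j hj S) hn

theorem amiceBoundaryS_hasRoots' [CharZero Ω] (S : Finset Kb) {n : ℕ} (hn : n ≠ 0) :
    (amiceBoundaryS X hX j hj S).HasRoots n :=
  amiceBoundaryS_hasRoots X hX j hj S (Nat.cast_ne_zero.mpr hn)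

include hX hj in
/-- the constants of the level `S` fill the residue field of `Wc (KS' X j S)` -/
theorem exists_const_sub_lt (S : Finset Kb) (x : Wc (KS' X j S)) :
    ∃ a : constRing (K := Kb) (X.R S), ‖(x : Ω) - j (a : Kb)‖ < 1 := by
  obtain ⟨x₀, hx₀, hx₀1, hxx₀⟩ := exists_residue (KS' X j S) x
  -- `x₀ = j c` for some `c ∈ A`
  obtain ⟨c, hc, rfl⟩ : ∃ c : Kb, c ∈ A ∧ j c = x₀ := by
    have hx₀' := hx₀
    rw [KS', Subfield.mem_closure_iff] at hx₀'
    obtain ⟨y, hy, z, hz, rfl⟩ := hx₀'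
    have hr : Subring.closure (Set.range (jS X j S)) = (jS X j S).range := by
      rw [← RingHom.coe_range, Subring.closure_eq]
    rw [hr] at hy hz
    obtain ⟨a, rfl⟩ := hy
    obtain ⟨b, rfl⟩ := hz
    refine ⟨(a : Kb) / (b : Kb), ?_, ?_⟩
    · rw [← hj, map_div₀]
      exact hx₀1
    · rw [map_div₀]
      rfl
  obtain ⟨a, ha, hca⟩ := DiscInst.exists_ws_sub_lt hq hA S hc
  refine ⟨⟨a, WS_le_constRing X S ha⟩, ?_⟩
  have h1 : ‖j c - j a‖ < 1 := by
    rw [← map_sub]
    exact norm_lt_one_of_lt j hj _ hca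
  have e : (x : Ω) - j a = ((x : Ω) - j c) + (j c - j a) := by ring
  show ‖(x : Ω) - j a‖ < 1
  rw [e]
  exact (IsUltrametricDist.norm_add_le_max _ _).trans_lt (max_lt hxx₀ h1)

/-- **Density** of the polynomials with constants of the level modulo `(ϖ, X ^ N)`, in the literal
of `ExpandDisc.discDatum` (`hBdens`). -/
theorem hBdens_targetS (S : Finset Kb) (g : PowerSeries (Wc (KS' X j S))) (M : ℕ) :
    ∃ (a : ℕ → constRing (K := Kb) (X.R S)) (g' : PowerSeries (Wc (KS' X j S))),
      g - ∑ n ∈ Finset.range M, (targetS X hX j hj S).c (a n) * (targetS X hX j hj S).X ^ n -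
          (targetS X hX j hj S).X ^ M * g' ∈
        Ideal.span {(targetS X hX j hj S).c (ExpandDisc.unif (X.level S))} :=
  exists_poly_sub_sub_mem (isDiscNormed_KS' X hX j hj S)
    (fun a : constRing (K := Kb) (X.R S) => constW (jS_mem_Wc X hX j hj S) a)
    (fun x => exists_const_sub_lt X hX j hj S x) g M

end Fermat.Agent.FF3.DiscTarget
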